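import Fermat.Agent.Mazur.Immersion.Modular
import Mathlib.Topology.MetricSpace.Contracting

/-!
# Every value in the open disc is `1/j` of a point of the disc
-/

set_option autoImplicit false

noncomputable section

namespace Fermat.Agent.Mazur.Moduli

open Immersion

variable {q : ℕ} [Fact q.Prime]

theorem norm_divXSub_jInv_sub_one {u u' : ℂ_[q]} (hu : ‖u‖ < 1) (hu' : ‖u'‖ < 1) :
    ‖evalAt u' (divXSub u (jInvSer q)) - 1‖ ≤ max ‖u'‖ ‖u‖ := by
  set D := divXSub u (jInvSer q) with hD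
  have hDint : IntSeries D := intSeries_divXSub hu (intSeries_jInvSer q)
  have hshift : IntSeries (PowerSeries.mk fun k => PowerSeries.coeff (k + 1) (jInvSer q)) :=
    fun k => by simpa using intSeries_jInvSer q (k + 1)
  have h0 : ‖PowerSeries.coeff 0 D - 1‖ ≤ ‖u‖ := by
    have := norm_evalAt_sub_coeff_zero_le hu hshift
    rw [PowerSeries.coeff_mk, coeff_one_jInvSer] at this
    simpa [hD, divXSub, evalAt, add_comm 1] using this
  rw [show evalAt u' D - 1 = (evalAt u' D - PowerSeries.coeff 0 D) +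
    (PowerSeries.coeff 0 D - 1) by ring]
  exact (IsUltrametricDist.norm_add_le_max _ _).trans
    (max_le_max (norm_evalAt_sub_coeff_zero_le hu' hDint) h0)

theorem exists_jInvVal_eq {c : ℂ_[q]} (hc : ‖c‖ < 1) :
    ∃ s : ℂ_[q], ‖s‖ < 1 ∧ jInvVal s = c := by
  set B := Metric.closedBall (0 : ℂ_[q]) ‖c‖ with hB
  have hmem : ∀ u ∈ B, ‖u‖ ≤ ‖c‖ ∧ ‖u‖ < 1 := fun u hu =>
    ⟨mem_closedBall_zero_iff.mp hu, (mem_closedBall_zero_iff.mp hu).trans_lt hc⟩
  set T : ℂ_[q] → ℂ_[q] := fun u => u - (jInvVal u - c) with hT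
  have hmaps : Set.MapsTo T B B := fun u hu => by
    rw [hB, mem_closedBall_zero_iff]
    obtain ⟨h1, h2⟩ := hmem u hu
    show ‖u - (jInvVal u - c)‖ ≤ ‖c‖
    rw [show u - (jInvVal u - c) = u + (-jInvVal u + c) by ring]
    refine (IsUltrametricDist.norm_add_le_max _ _).trans (max_le h1 ?_)
    refine (IsUltrametricDist.norm_add_le_max _ _).trans (max_le ?_ le_rfl)
    rw [norm_neg, norm_jInvVal h2]
    exact h1
  have hlip : LipschitzWith ‖c‖₊ (hmaps.restrict T B B) := by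
    refine LipschitzWith.of_dist_le_mul fun x y => ?_
    rw [Subtype.dist_eq, Subtype.dist_eq, dist_eq_norm, dist_eq_norm, coe_nnnorm]
    show ‖T x.1 - T y.1‖ ≤ _
    obtain ⟨hx1, hx2⟩ := hmem x.1 x.2
    obtain ⟨hy1, hy2⟩ := hmem y.1 y.2
    show ‖x.1 - (jInvVal x.1 - c) - (y.1 - (jInvVal y.1 - c))‖ ≤ _
    rw [show x.1 - (jInvVal x.1 - c) - (y.1 - (jInvVal y.1 - c)) =
      (x.1 - y.1) * (1 - evalAt x.1 (divXSub y.1 (jInvSer q))) by
        have := jInvVal_sub hy2 hx2
        linear_combination -this, norm_mul, mul_comm]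
    refine mul_le_mul_of_nonneg_right ?_ (norm_nonneg _)
    rw [norm_sub_rev]
    exact (norm_divXSub_jInv_sub_one hy2 hx2).trans (max_le hx1 hy1)
  obtain ⟨s, hs, hfix, -⟩ := ContractingWith.exists_fixedPoint' (f := T) (s := B)
    Metric.isClosed_closedBall.isComplete hmaps ⟨by exact_mod_cast hc, hlip⟩
    (x := 0) (Metric.mem_closedBall_self (norm_nonneg _)) (edist_ne_top _ _)
  refine ⟨s, (hmem s hs).2, ?_⟩
  have h : s - (jInvVal s - c) = s := hfix
  linear_combination -h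

end Fermat.Agent.Mazur.Moduli
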