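import Fermat.Agent.Mazur.Moduli.WeberFun
import Fermat.Agent.MF.PlaceOrbits.Corollaries
import Fermat.Agent.ECTorsion.Count
import Fermat.Agent.LR.ChangeVar
import Fermat.Agent.WeilPairing.Map
import Fermat.Prelude.Def_FLTPrelim_GaloisRep
import Mathlib.AlgebraicGeometry.EllipticCurve.IsomOfJ

/-!
# The place of `X₀(p)` of a curve with a stable subgroup of order `p`

The place is the point `(τ, line)` over `j`; it is fixed by Galois because the values there of
the functions of `WeberFun` are the symmetric functions of `-(x + b₂/12) c₄/c₆` on the subgroup,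
and these separate the lines.
-/

set_option autoImplicit false
set_option linter.unusedSectionVars false
set_option linter.style.haveILetI false

noncomputable section

open UpperHalfPlane CongruenceSubgroup WeierstrassCurve WeierstrassCurve.Affine
open scoped MatrixGroups ModularForm Real WeierstrassCurve.Affine

namespace Fermat.Agent.Mazur.Moduli

open AlgebraicCurve ModularCurve
open Fermat.Agent.DS.G1 Fermat.Agent.RED.Kernel
open Fermat.Agent.MF (MForm qL coe_mem_qFunctions)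
open Fermat.Agent.MF.PlaceOrbits (jData JData ptOrd)

local notation "ℚbar" => AlgebraicClosure ℚ

/-! ### The function `-(x + b₂/12) c₄/c₆` on points -/

section Weber

variable {K : Type*} [Field K]

/-- `-(x + b₂/12) c₄/c₆`. -/
def weberX (W : WeierstrassCurve K) (x : K) : K := -(x + W.b₂ / 12) * W.c₄ / W.c₆

/-- The same on points, `0` at the origin. -/
def weberH {W : WeierstrassCurve.Affine K} : W.Point → K
  | .zero => 0
  | .some x _ _ => weberX W x

theorem weberH_cvPoint [CharZero K] [DecidableEq K] (W : WeierstrassCurve K) (C : VariableChange K)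
    (P : (C • W).toAffine.Point) : weberH (LR.cvPoint W C P) = weberH P := by
  rcases P with _ | ⟨x, y, h⟩
  · rfl
  show weberX W (LR.cvX C x) = weberX (C • W) x
  have hu : (C.u : K) ≠ 0 := C.u.ne_zero
  simp only [weberX, LR.cvX, variableChange_b₂, variableChange_c₄, variableChange_c₆,
    Units.val_inv_eq_inv_val]
  field_simp
  ring

theorem weberH_pointMapTo {L : Type*} [Field L] [DecidableEq K] [DecidableEq L]
    {V : WeierstrassCurve.Affine K} {V₂ : WeierstrassCurve.Affine L} (f : K →+* L)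
    (h : V.map f = V₂) (P : V.Point) :
    weberH (WeilPairing.pointMapTo f h P) = f (weberH P) := by
  subst h
  rcases P with _ | ⟨x, y, hP⟩
  · exact (map_zero f).symm
  show weberX (V.map f) (f x) = f (weberX V x)
  simp only [weberX, map_b₂, map_c₄, map_c₆, map_div₀, map_mul, map_neg, map_add, map_ofNat]

end Weber

/-! ### Values at points of the upper half plane -/

variable {p : ℕ} [Fact p.Prime]

/-- The value of `weberH` at the torsion point `v`. -/
def weberVal (τ : ℍ) (v : Fin 2 → ZMod p) : ℂ :=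
  wpVec p v τ * ModularForm.E₄ τ / ModularForm.E₆ τ

theorem wpCurve_c₄ (τ : ℍ) :
    (wpCurve (tauPair τ)).c₄ = (2 * π * Complex.I) ^ 4 * ModularForm.E₄ τ := by
  simp [WeierstrassCurve.c₄, WeierstrassCurve.b₂, WeierstrassCurve.b₄, g₂_tauPair]
  ring

theorem wpCurve_c₆ (τ : ℍ) :
    (wpCurve (tauPair τ)).c₆ = -((2 * π * Complex.I) ^ 6 * ModularForm.E₆ τ) := by
  simp [WeierstrassCurve.c₆, WeierstrassCurve.b₂, WeierstrassCurve.b₄, WeierstrassCurve.b₆,
    g₃_tauPair]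
  ring

theorem wpCurve_j (τ : ℍ) [(wpCurve (tauPair τ)).IsElliptic] :
    (wpCurve (tauPair τ)).j = MF.kleinJ τ := by
  have hc := pow_ne_zero 12 Complex.two_pi_I_ne_zero
  have hd : (wpCurve (tauPair τ)).Δ =
      (2 * π * Complex.I) ^ 12 * ModularForm.discriminant τ := by
    have h := (wpCurve (tauPair τ)).c_relation
    rw [wpCurve_c₄, wpCurve_c₆] at h
    have e := ModularForm.discriminant_eq_E₄_cube_sub_E₆_sq τ
    linear_combination (1 / 1728 : ℂ) * h - (2 * π * Complex.I) ^ 12 * e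
  rw [WeierstrassCurve.j, Units.val_inv_eq_inv_val, coe_Δ', hd, wpCurve_c₄, MF.kleinJ]
  have := ModularForm.discriminant_ne_zero τ
  field_simp

theorem weberH_torsHom (τ : ℍ) {v : Fin 2 → ZMod p} (hv : v ≠ 0) :
    weberH (torsHom p τ v) = weberVal τ v := by
  obtain ⟨h, e⟩ := torsHom_eq_some hv τ
  rw [e]
  show weberX _ _ = _
  rw [weberX, wpCurve_c₄, wpCurve_c₆, weberVal]
  simp only [WeierstrassCurve.b₂]
  have hc := Complex.two_pi_I_ne_zero
  generalize (2 * π * Complex.I : ℂ) = c at hc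
  field_simp
  ring

/-- `(0, 1) δ`. -/
def lineRow (p : ℕ) (δ : SL(2, ℤ)) : Fin 2 → ZMod p := fun i => ((δ 1 i : ℤ) : ZMod p)

theorem lineRow_ne_zero (δ : SL(2, ℤ)) : lineRow p δ ≠ 0 := fun h => by
  have hdet := congrArg (Int.cast : ℤ → ZMod p) (MF.Cosets.det_entries δ)
  have h0 := congrFun h 0
  have h1 := congrFun h 1
  simp [lineRow] at h0 h1
  push_cast at hdet
  rw [h0, h1] at hdet
  simp at hdet

theorem weberProd_smul (t : ℂ) (δ : SL(2, ℤ)) {τ : ℍ} (h6 : ModularForm.E₆ τ ≠ 0) :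
    weberProd p t (δ • τ) = (∏ b : (ZMod p)ˣ, (weberVal τ ((b : ZMod p) • lineRow p δ) - t)) *
      ModularForm.E₆ (δ • τ) ^ Fintype.card (ZMod p)ˣ := by
  rw [← Finset.card_univ, ← Finset.prod_const, ← Finset.prod_mul_distrib, weberProd,
    Finset.prod_apply]
  refine Finset.prod_congr rfl fun b _ => ?_
  have e : (fun i => lineVec b 0 * ((δ 0 i : ℤ) : ZMod p) + lineVec b 1 * ((δ 1 i : ℤ) : ZMod p)) =
      (b : ZMod p) • lineRow p δ := funext fun i => by simp [lineVec, lineRow]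
  rw [weberFactor, wpVec_smul, e, E₄_smul, E₆_smul, weberVal]
  field_simp

theorem E₆_smul_ne_zero (δ : SL(2, ℤ)) {τ : ℍ} (h6 : ModularForm.E₆ τ ≠ 0) :
    ModularForm.E₆ (δ • τ) ≠ 0 := by
  rw [E₆_smul]
  exact mul_ne_zero (pow_ne_zero _ (denom_ne_zero δ τ)) h6

/-- The products over two lines determine the coset. -/
theorem gamma0_of_prod_eq {τ : ℍ} (h4 : ModularForm.E₄ τ ≠ 0) (h6 : ModularForm.E₆ τ ≠ 0)
    (δ γ : SL(2, ℤ))
    (h : ∀ t : ℚ, ∏ b : (ZMod p)ˣ, (weberVal τ ((b : ZMod p) • lineRow p δ) - (t : ℂ)) =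
      ∏ b : (ZMod p)ˣ, (weberVal τ ((b : ZMod p) • lineRow p γ) - (t : ℂ))) :
    δ * γ⁻¹ ∈ Gamma0 p := by
  have hpoly : ∏ b : (ZMod p)ˣ,
      (Polynomial.C (weberVal τ ((b : ZMod p) • lineRow p δ)) - Polynomial.X) =
      ∏ b : (ZMod p)ˣ,
        (Polynomial.C (weberVal τ ((b : ZMod p) • lineRow p γ)) - Polynomial.X) := by
    refine Polynomial.eq_of_infinite_eval_eq _ _
      ((Set.infinite_range_of_injective (Rat.cast_injective (α := ℂ))).mono ?_)
    rintro _ ⟨t, rfl⟩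
    simpa [Polynomial.eval_prod] using h t
  have he := congrArg (Polynomial.eval (weberVal τ (lineRow p δ))) hpoly
  simp only [Polynomial.eval_prod, Polynomial.eval_sub, Polynomial.eval_C,
    Polynomial.eval_X] at he
  rw [Finset.prod_eq_zero (Finset.mem_univ (1 : (ZMod p)ˣ)) (by simp), eq_comm,
    Finset.prod_eq_zero_iff] at he
  obtain ⟨b, -, hb⟩ := he
  rw [sub_eq_zero, weberVal, weberVal, div_left_inj' h6, mul_left_inj' h4] at hb
  have hpar : ((δ 1 0 : ℤ) : ZMod p) * (γ 1 1 : ℤ) = ((δ 1 1 : ℤ) : ZMod p) * (γ 1 0 : ℤ) := by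
    rcases (wpVec_eq_iff (smul_ne_zero b.ne_zero (lineRow_ne_zero γ)) (lineRow_ne_zero δ) τ).mp
      hb with e | e <;>
    · have e0 := congrFun e 0
      have e1 := congrFun e 1
      simp only [Pi.smul_apply, Pi.neg_apply, lineRow, smul_eq_mul] at e0 e1
      refine mul_left_cancel₀ b.ne_zero ?_
      linear_combination ((δ 1 0 : ℤ) : ZMod p) * e1 - ((δ 1 1 : ℤ) : ZMod p) * e0
  rw [Gamma0_mem, Matrix.SpecialLinearGroup.coe_mul, Matrix.SpecialLinearGroup.coe_inv,
    Matrix.adjugate_fin_two, Matrix.mul_apply, Fin.sum_univ_two]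
  simp only [Matrix.of_apply, Matrix.cons_val', Matrix.cons_val_zero, Matrix.cons_val_one,
    Matrix.cons_val_fin_one, Int.cast_add, Int.cast_mul, Int.cast_neg]
  linear_combination hpar

/-- At a point, an element congruent to a constant takes that value. -/
theorem value_eq_of_ord_pos {N : ℕ} [NeZero N] {ι : ℚbar →+* ℂ}
    {E : IntermediateField ℚbar (LaurentSeries ℚbar)} (D : JData ι N E) (R : Place ℚbar E)
    {δ : SL(2, ℤ)} {τ : ℍ} {q : MF.Cosets.X0 N} (hq : q = QuotientGroup.mk δ⁻¹) {d s : ℕ}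
    (hd : 0 < d) (hord : ∀ x : E, (d : ℤ) * R.ord x = s * -WithZero.log (D.pointVal τ q x))
    {k : ℤ} (f g : MForm N k) (hg : g (δ • τ) ≠ 0) {x : E} {c : ℚbar}
    (hx : coeffMap ι (x : LaurentSeries ℚbar) = qL f / qL g)
    (hc : x = algebraMap ℚbar E c ∨ 0 < R.ord (x - algebraMap ℚbar E c)) :
    f (δ • τ) = ι c * g (δ • τ) := by
  have hg0 : g ≠ 0 := fun h => hg (by simp [h])
  have hgq : qL g ≠ 0 := mt (MF.qL_mform_eq_zero_iff g).mp hg0
  have hrep : (D.emb (x - algebraMap ℚbar E c) : LaurentSeries ℂ) =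
      qL (f - ι c • g : MForm N k) / qL g := by
    rw [sub_eq_add_neg f, ← _root_.neg_smul, MF.qL_mform_add, MF.qL_mform_smul, map_neg, map_sub,
      D.emb_algebraMap, AddSubgroupClass.coe_sub, D.coe_emb, hx, add_div,
      mul_div_cancel_right₀ _ hgq, IntermediateField.coe_algebraMap_apply, sub_eq_add_neg]
  by_contra hne
  have hF : (f - ι c • g : MForm N k) (δ • τ) ≠ 0 := by simpa [sub_eq_zero] using hne
  have hF0 : (f - ι c • g : MForm N k) ≠ 0 := fun h => hF (by simp [h])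
  rcases hc with hc | hc
  · rw [hc, sub_self, map_zero, ZeroMemClass.coe_zero, eq_comm, div_eq_zero_iff,
      MF.qL_mform_eq_zero_iff, MF.qL_mform_eq_zero_iff] at hrep
    exact hrep.elim hF0 hg0
  · have h := hord (x - algebraMap ℚbar E c)
    rw [hq, JData.pointVal, Valuation.comap_apply, MF.PlaceOrbits.ptValAt_mk, inv_inv,
      MF.PlaceOrbits.ptVal, (MF.PlaceOrbits.ptOrder N (δ • τ)).log_val hF0 hg0 hrep] at h
    change (d : ℤ) * _ = (s : ℤ) * -(ptOrd g (δ • τ) - ptOrd (f - ι c • g : MForm N k) (δ • τ))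
      at h
    rw [MF.PlaceOrbits.ptOrd_eq_zero_of_ne_zero (ModularFormClass.holo _) hg,
      MF.PlaceOrbits.ptOrd_eq_zero_of_ne_zero (ModularFormClass.holo _) hF, sub_zero, neg_zero,
      mul_zero] at h
    exact hc.ne' ((mul_eq_zero.mp h).resolve_left (by omega))

/-- A regular ratio has a value. -/
theorem exists_value {N : ℕ} [NeZero N] {ι : ℚbar →+* ℂ}
    {E : IntermediateField ℚbar (LaurentSeries ℚbar)} (D : JData ι N E) (R : Place ℚbar E)
    {δ : SL(2, ℤ)} {τ : ℍ} {q : MF.Cosets.X0 N} (hq : q = QuotientGroup.mk δ⁻¹)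
    (hm : ∀ x : E, x ∈ R.toValuationSubring ↔ D.pointVal τ q x ≤ 1)
    {k : ℤ} (f g : MForm N k) (hg : g (δ • τ) ≠ 0) {x : E}
    (hx : coeffMap ι (x : LaurentSeries ℚbar) = qL f / qL g) :
    ∃ c : ℚbar, x = algebraMap ℚbar E c ∨ 0 < R.ord (x - algebraMap ℚbar E c) := by
  by_cases hconst : ∃ c, x = algebraMap ℚbar E c
  · exact hconst.imp fun _ => Or.inl
  push Not at hconst
  have hg0 : g ≠ 0 := fun h => hg (by simp [h])
  have hrep : (D.emb x : LaurentSeries ℂ) = qL f / qL g := by rw [D.coe_emb, hx]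
  have hf0 : f ≠ 0 := by
    rintro rfl
    rw [FunLike.coe_zero, MF.qL_zero, zero_div, ZeroMemClass.coe_eq_zero, map_eq_zero] at hrep
    exact hconst 0 (by rw [hrep, map_zero])
  have hmem : x ∈ R.toValuationSubring := by
    rw [hm, hq, JData.pointVal, Valuation.comap_apply, MF.PlaceOrbits.ptValAt_mk, inv_inv,
      MF.PlaceOrbits.ptVal, (MF.PlaceOrbits.ptOrder N (δ • τ)).val_le_one_iff hf0 hg0 hrep]
    show ptOrd g (δ • τ) ≤ ptOrd f (δ • τ)
    rw [MF.PlaceOrbits.ptOrd_eq_zero_of_ne_zero (ModularFormClass.holo _) hg]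
    exact MF.PlaceOrbits.ptOrd_nonneg (ModularFormClass.holo _) _
  have := D.isFunctionField
  exact (FF.KS.exists_ord_sub_pos (Place.deg_eq_one_of_isAlgClosed_of_finite R) hmem
    hconst).imp fun _ => Or.inr

/-- The symmetric functions on a stable subgroup are rational and are values at a line. -/
theorem exists_row (V : WeierstrassCurve ℚ) (hΔ : V.Δ ≠ 0) (Q : (V⁄ℚbar).Point)
    (hQ : addOrderOf Q = p)
    (hstab : ∀ σ : ℚbar ≃ₐ[ℚ] ℚbar, σ • Q ∈ AddSubgroup.zmultiples Q) (ι : ℚbar →+* ℂ) (τ : ℍ)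
    (hτ : MF.kleinJ τ = ι (algebraMap ℚ ℚbar (V.c₄ ^ 3 / V.Δ))) :
    ∃ γ : SL(2, ℤ), ∀ t : ℚ, ∃ c : ℚbar, (∀ σ : ℚbar ≃ₐ[ℚ] ℚbar, σ c = c) ∧
      ι c = ∏ b : (ZMod p)ˣ, (weberVal τ ((b : ZMod p) • lineRow p γ) - (t : ℂ)) := by
  classical
  have hp : p.Prime := Fact.out
  have hιr : ∀ r : ℚ, ι (algebraMap ℚ ℚbar r) = (r : ℂ) := fun r => by
    rw [eq_ratCast, map_ratCast]
  -- the isomorphism with the curve of `τ`
  haveI : ((V⁄ℚbar).map ι).IsElliptic := ⟨by
    show IsUnit ((V.map _).map _).Δ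
    rw [map_Δ, map_Δ, hιr]
    exact isUnit_iff_ne_zero.mpr (by exact_mod_cast hΔ)⟩
  haveI : (wpCurve (tauPair τ)).IsElliptic :=
    ⟨isUnit_iff_ne_zero.mpr (wpCurve_tauPair_Δ τ)⟩
  have hj : (wpCurve (tauPair τ)).j = ((V⁄ℚbar).map ι).j := by
    rw [wpCurve_j, hτ, hιr, WeierstrassCurve.j, Units.val_inv_eq_inv_val, coe_Δ',
      show (V⁄ℚbar).map ι = (V.map (algebraMap ℚ ℚbar)).map ι from rfl, map_Δ, map_c₄, map_Δ, map_c₄, hιr, hιr]
    push_cast
    ring
  obtain ⟨C, hC⟩ := exists_variableChange_of_j_eq _ _ hj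
  have hCι : (V⁄ℚbar).map ι = (C • wpCurve (tauPair τ)).toAffine := hC.symm
  let φ : (V⁄ℚbar).Point →+ (wpCurve (tauPair τ)).toAffine.Point :=
    (LR.cvPoint (wpCurve (tauPair τ)) C).comp (WeilPairing.pointMapTo ι hCι)
  have hφi : Function.Injective φ :=
    (LR.cvPoint_injective _ C).comp (WeilPairing.pointMapTo_injective ι hCι)
  have hφh : ∀ P, weberH (φ P) = ι (weberH P) := fun P =>
    (weberH_cvPoint _ C _).trans (weberH_pointMapTo ι hCι P)
  -- the vector of `Q`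
  obtain ⟨v, hv⟩ : ∃ v, torsHom p τ v = φ Q := by
    let T := Submodule.torsionBy ℤ (wpCurve (tauPair τ)).toAffine.Point (p : ℤ)
    have hmem : ∀ w, torsHom p τ w ∈ T := fun w => by
      rw [Submodule.mem_torsionBy_iff, natCast_zsmul, ← map_nsmul]
      simp [show p • w = 0 from funext fun i => by simp [nsmul_eq_mul]]
    let e : (Fin 2 → ZMod p) → T := fun w => ⟨_, hmem w⟩
    have he : Function.Injective e := fun w w' h =>
      torsHom_injective τ (congrArg Subtype.val h)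
    have hcard := ECTorsion.natCard_torsionBy_le (W := (wpCurve (tauPair τ)).toAffine)
      (wpCurve_tauPair_Δ τ) (Nat.cast_ne_zero.mpr hp.ne_zero : (p : ℂ) ≠ 0)
    have hcard' := ECTorsion.natCard_torsionBy (W := (wpCurve (tauPair τ)).toAffine)
      (wpCurve_tauPair_Δ τ) (Nat.cast_ne_zero.mpr hp.ne_zero : (p : ℂ) ≠ 0)
    haveI : Finite T := Nat.finite_of_card_ne_zero (hcard' ▸ pow_ne_zero 2 hp.ne_zero)
    have hb := he.bijective_of_nat_card_le (hcard.trans_eq (by simp))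
    have hQT : φ Q ∈ T := by
      rw [Submodule.mem_torsionBy_iff, natCast_zsmul, ← map_nsmul,
        show p • Q = 0 from hQ ▸ addOrderOf_nsmul_eq_zero Q]
      exact map_zero φ
    obtain ⟨w, hw⟩ := hb.2 ⟨φ Q, hQT⟩
    exact ⟨w, congrArg Subtype.val hw⟩
  have hQ0 : Q ≠ 0 := fun h => hp.ne_one (by rw [← hQ, h, addOrderOf_zero])
  have hv0 : v ≠ 0 := fun h => hQ0 (hφi (by rw [← hv, h, map_zero, map_zero]))
  have hprim : IsPrim v := by
    by_cases h0 : v 0 = 0
    · have h1 : v 1 ≠ 0 := fun h1 => hv0 (funext fun i => by fin_cases i <;> assumption)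
      exact ⟨0, (v 1)⁻¹, by simp [h1]⟩
    · exact ⟨(v 0)⁻¹, 0, by simp [h0]⟩
  obtain ⟨γ, hγ⟩ := exists_rowMul_base (⟨v, hprim⟩ : PrimVec p)
  have hrow : lineRow p γ = v := by
    funext i
    rw [← show (rowMul (base p) γ).1 = v from congrArg Subtype.val hγ, rowMul_apply]
    simp [base, lineRow]
  -- the symmetric functions on the subgroup
  let c₀ : ℚ → ℚbar := fun t =>
    ∏ b : (ZMod p)ˣ, (weberH ((b : ZMod p).val • Q : (V⁄ℚbar).Point) - (t : ℚbar))
  have hc₀ι : ∀ t : ℚ, ι (c₀ t) =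
      ∏ b : (ZMod p)ˣ, (weberVal τ ((b : ZMod p) • lineRow p γ) - (t : ℂ)) := fun t => by
    rw [map_prod]
    refine Finset.prod_congr rfl fun b _ => ?_
    rw [map_sub, map_ratCast, ← hφh, ← weberH_torsHom τ
      (smul_ne_zero b.ne_zero (lineRow_ne_zero γ)), map_nsmul, ← hv, hrow, ← map_nsmul]
    congr 3
    funext i
    simp [nsmul_eq_mul]
  have hc₀σ : ∀ (σ : ℚbar ≃ₐ[ℚ] ℚbar) (t : ℚ), σ (c₀ t) = c₀ t := fun σ t => by
    have hσV : (V⁄ℚbar).map (σ : ℚbar →+* ℚbar) = (V⁄ℚbar) := by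
      show (V.map (algebraMap ℚ ℚbar)).map _ = V.map (algebraMap ℚ ℚbar)
      rw [WeierstrassCurve.map_map]
      congr 1
      exact RingHom.ext fun r => σ.commutes r
    have hsm : ∀ P : (V⁄ℚbar).Point,
        WeilPairing.pointMapTo (σ : ℚbar →+* ℚbar) hσV P = σ • (P : (V⁄ℚbar).Point) := by
      rintro (_ | ⟨x, y, h⟩) <;> rfl
    obtain ⟨k, hk⟩ := AddSubgroup.mem_zmultiples_iff.mp (hstab σ)
    have hku : IsUnit (k : ZMod p) := by
      rw [isUnit_iff_ne_zero, ne_eq, ZMod.intCast_zmod_eq_zero_iff_dvd, ← hQ,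
        addOrderOf_dvd_iff_zsmul_eq_zero, hk]
      exact fun h => hQ0 (smul_eq_zero_iff_eq σ |>.mp h)
    rw [map_prod]
    refine Fintype.prod_equiv (Equiv.mulRight hku.unit) _ _ fun b => ?_
    rw [map_sub, map_ratCast, show σ (weberH _) = (σ : ℚbar →+* ℚbar) (weberH _) from rfl,
      ← weberH_pointMapTo _ hσV, map_nsmul, hsm, ← hk]
    congr 2
    rw [← natCast_zsmul, ← natCast_zsmul, smul_smul]
    refine zsmul_eq_zsmul_iff_modEq.mpr ?_
    rw [hQ, ← ZMod.intCast_eq_intCast_iff]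
    simp
  exact ⟨γ, fun t => ⟨c₀ t, fun σ => hc₀σ σ t, hc₀ι t⟩⟩

/-- A line with rational symmetric functions gives a fixed place. -/
theorem exists_place_of_row {a : ℚbar} (ha : ∀ σ : ℚbar ≃ₐ[ℚ] ℚbar, σ a = a) {τ : ℍ}
    (hτ : MF.kleinJ τ = Immersion.complexEmb a) (hj0 : MF.kleinJ τ ≠ 0)
    (hj1728 : MF.kleinJ τ ≠ 1728) (γ : SL(2, ℤ))
    (H : ∀ t : ℚ, ∃ c : ℚbar, (∀ σ : ℚbar ≃ₐ[ℚ] ℚbar, σ c = c) ∧ Immersion.complexEmb c =
      ∏ b : (ZMod p)ˣ, (weberVal τ ((b : ZMod p) • lineRow p γ) - (t : ℂ))) :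
    ∃ R : Place ℚbar (modularFunctionFieldBar p),
      (∀ σ : ℚbar ≃ₐ[ℚ] ℚbar, arithmeticGalois (modularFunctionFieldFull p) σ • R = R) ∧
        0 < R.ord (MF.Coeff.jElem ℚbar p -
          algebraMap ℚbar (modularFunctionFieldBar p) a) := by
  have hE4 : ModularForm.E₄ τ ≠ 0 := mt (MF.kleinJ_eq_zero_iff τ).mpr hj0
  have hE6 : ModularForm.E₆ τ ≠ 0 := mt (MF.kleinJ_eq_1728_iff τ).mpr hj1728
  let ι := Immersion.complexEmb
  -- the place
  let D := jData ι p
  have hgen := MF.PlaceOrbits.isStabGen_one hj0 hj1728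
  obtain ⟨Φ, hΦ⟩ := D.exists_pointEquiv hτ hgen
  set R := (Φ (Quotient.mk'' (QuotientGroup.mk γ⁻¹))).1 with hR
  have hRa : 0 < R.ord (D.j - algebraMap ℚbar (modularFunctionFieldBar p) a) := (Φ _).2
  refine ⟨R, fun σ => ?_, hRa⟩
  set g := arithmeticGalois (modularFunctionFieldFull p) σ with hg
  have hgc : ∀ c : ℚbar, σ c = c →
      g • algebraMap ℚbar (modularFunctionFieldBar p) c = algebraMap ℚbar _ c := fun c hc => by
    rw [SemilinearAut.smul_def, hg, toRingAut_arithmeticGalois, arithmeticRingAut_algebraMap, hc]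
  have hσR : 0 < (g • R).ord (D.j - algebraMap ℚbar (modularFunctionFieldBar p) a) := by
    have hfix : g • (D.j - algebraMap ℚbar (modularFunctionFieldBar p) a) =
        D.j - algebraMap ℚbar (modularFunctionFieldBar p) a := by
      rw [smul_sub, hgc a (ha σ)]
      congr 1
      exact Subtype.ext ((coe_arithmeticGalois_smul _ σ _).trans (coeffMap_jqModC _))
    rw [← hfix, SemilinearAut.ord_smul]
    exact hRa
  obtain ⟨o, ho⟩ := Φ.surjective ⟨g • R, hσR⟩
  induction o using Quotient.inductionOn' with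
  | h q =>
  induction q using QuotientGroup.induction_on with
  | H g' =>
  have hoR : (Φ (Quotient.mk'' (QuotientGroup.mk g'))).1 = g • R := congrArg Subtype.val ho
  have hmk : (QuotientGroup.mk g' : MF.Cosets.X0 p) = QuotientGroup.mk g'⁻¹⁻¹ := by rw [inv_inv]
  have hd := MF.kleinJDegree_pos τ
  have hsix : ∀ δ : SL(2, ℤ), sixForm p (δ • τ) ≠ 0 := fun δ => by
    rw [coe_sixForm, Pi.pow_apply]
    exact pow_ne_zero _ (E₆_smul_ne_zero δ hE6)
  have hprod : ∀ t : ℚ,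
      ∏ b : (ZMod p)ˣ, (weberVal τ ((b : ZMod p) • lineRow p g'⁻¹) - (t : ℂ)) =
      ∏ b : (ZMod p)ˣ, (weberVal τ ((b : ZMod p) • lineRow p γ) - (t : ℂ)) := fun t => by
    obtain ⟨U, hUfix, hU⟩ := exists_weberElt (p := p) t
    obtain ⟨hm, -, hord⟩ := hΦ (QuotientGroup.mk γ⁻¹)
    obtain ⟨c, hc⟩ := exists_value D R rfl hm _ _ (hsix γ) hU
    have h1 := value_eq_of_ord_pos D R rfl hd hord _ _ (hsix γ) hU hc
    rw [coe_weberForm, coe_sixForm, Pi.pow_apply, weberProd_smul _ _ hE6,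
      mul_left_inj' (pow_ne_zero _ (E₆_smul_ne_zero γ hE6))] at h1
    obtain ⟨c₀, hc₀σ, hc₀ι⟩ := H t
    rw [← hc₀ι] at h1
    obtain rfl := ι.injective h1
    have hUc : g • (U - algebraMap ℚbar (modularFunctionFieldBar p) c₀) =
        U - algebraMap ℚbar (modularFunctionFieldBar p) c₀ := by
      rw [smul_sub, hgc _ (hc₀σ σ), hg, hUfix σ]
    have hc' : U = algebraMap ℚbar (modularFunctionFieldBar p) c₀ ∨
        0 < (g • R).ord (U - algebraMap ℚbar (modularFunctionFieldBar p) c₀) := by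
      refine hc.imp id fun h => ?_
      rw [← hUc, SemilinearAut.ord_smul]
      exact h
    obtain ⟨-, -, hord'⟩ := hΦ (QuotientGroup.mk g')
    rw [hoR] at hord'
    have h2 := value_eq_of_ord_pos D (g • R) hmk hd hord' _ _ (hsix g'⁻¹) hU hc'
    rw [coe_weberForm, coe_sixForm, Pi.pow_apply, weberProd_smul _ _ hE6,
      mul_left_inj' (pow_ne_zero _ (E₆_smul_ne_zero g'⁻¹ hE6))] at h2
    rw [h2, hc₀ι]
  have hcoset : (QuotientGroup.mk g' : MF.Cosets.X0 p) = QuotientGroup.mk γ⁻¹ :=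
    QuotientGroup.eq.mpr (gamma0_of_prod_eq hE4 hE6 _ _ hprod)
  rw [← hoR, hcoset]


/-- A stable subgroup of order `p` gives a fixed place over `j`. -/
theorem exists_fixed_place (V : WeierstrassCurve ℚ) (hΔ : V.Δ ≠ 0) (h4 : V.c₄ ≠ 0)
    (h6 : V.c₆ ≠ 0) (Q : (V⁄ℚbar).Point) (hQ : addOrderOf Q = p)
    (hstab : ∀ σ : ℚbar ≃ₐ[ℚ] ℚbar, σ • Q ∈ AddSubgroup.zmultiples Q) :
    ∃ R : Place ℚbar (modularFunctionFieldBar p),
      (∀ σ : ℚbar ≃ₐ[ℚ] ℚbar, arithmeticGalois (modularFunctionFieldFull p) σ • R = R) ∧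
        0 < R.ord (MF.Coeff.jElem ℚbar p -
          algebraMap ℚbar (modularFunctionFieldBar p) (algebraMap ℚ ℚbar (V.c₄ ^ 3 / V.Δ))) := by
  obtain ⟨τ, hτ⟩ := MF.kleinJ_surjective
    (Immersion.complexEmb (algebraMap ℚ ℚbar (V.c₄ ^ 3 / V.Δ)))
  have hr : MF.kleinJ τ = ((V.c₄ ^ 3 / V.Δ : ℚ) : ℂ) := by rw [hτ, eq_ratCast, map_ratCast]
  obtain ⟨γ, hγ⟩ := exists_row V hΔ Q hQ hstab _ τ hτ
  refine exists_place_of_row (fun σ => σ.commutes _) hτ ?_ ?_ γ hγ <;> rw [hr]
  · exact_mod_cast div_ne_zero (pow_ne_zero 3 h4) hΔ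
  · have : V.c₄ ^ 3 / V.Δ ≠ 1728 := fun e => h6 (pow_eq_zero_iff two_ne_zero |>.mp (by
      rw [div_eq_iff hΔ] at e
      linear_combination e + V.c_relation))
    exact_mod_cast this

end Fermat.Agent.Mazur.Moduli
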