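import Fermat.Agent.Mazur.Moduli.Fibre
import Fermat.Agent.Mazur.Moduli.JParam
import Fermat.Agent.Mazur.Moduli.WeberPoints

/-!
# Points of `X₀(p)` from curves with a stable subgroup of order `p` at a prime of multiplicative
reduction
-/

set_option autoImplicit false

noncomputable section

namespace Fermat.Agent.Mazur.Moduli

open AlgebraicCurve ModularCurve WeierstrassCurve WeierstrassCurve.Affine.Point Immersion
open scoped WeierstrassCurve.Affine

local notation "ℚbar" => AlgebraicClosure ℚ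

theorem norm_intCast_div_lt_one {q : ℕ} [Fact q.Prime] {n m : ℤ} (hn : (q : ℤ) ∣ n)
    (hm : ¬ (q : ℤ) ∣ m) : ‖((n : ℂ_[q]) / (m : ℂ_[q]))‖ < 1 := by
  have e : ∀ k : ℤ, ‖(k : ℂ_[q])‖ = ‖(k : ℚ_[q])‖ := fun k => by
    rw [← PadicComplex.norm_extends' q (k : ℚ_[q])]
    congr 1
    exact (map_intCast (algebraMap ℚ_[q] ℂ_[q]) k).symm
  have h1 : ‖(m : ℚ_[q])‖ = 1 :=
    le_antisymm (Padic.norm_int_le_one m) (not_lt.mp (mt Padic.norm_intCast_lt_one_iff.mp hm))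
  rw [norm_div, e, e, h1, div_one]
  exact Padic.norm_intCast_lt_one_iff.mpr hn

/-- A stable subgroup of order `p` of a curve with multiplicative reduction at `q` gives a
rational point of `X₀(p)` congruent to `∞` at `q`. -/
theorem exists_isEvalPlace_of_stable {p : ℕ} [NeZero p] (hp : p.Prime) {q : ℕ} [Fact q.Prime]
    (W : WeierstrassCurve ℤ) (hΔ : (q : ℤ) ∣ W.Δ) (hΔ0 : W.Δ ≠ 0) (hc₄ : ¬ (q : ℤ) ∣ W.c₄)
    (Q : ((W.map (Int.castRingHom ℚ))⁄ℚbar).Point) (hQ : addOrderOf Q = p)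
    (hstab : ∀ σ : ℚbar ≃ₐ[ℚ] ℚbar, σ • Q ∈ AddSubgroup.zmultiples Q) :
    ∃ (P : Place ℚbar (modularFunctionFieldBar p)) (s : ℂ_[q]),
      (∀ σ : ℚbar ≃ₐ[ℚ] ℚbar, arithmeticGalois (modularFunctionFieldFull p) σ • P = P) ∧
        s ≠ 0 ∧ IsEvalPlace q p P s := by
  have : Fact p.Prime := ⟨hp⟩
  have hVΔ : (W.map (Int.castRingHom ℚ)).Δ = (W.Δ : ℚ) := by rw [map_Δ]; rfl
  have hV4 : (W.map (Int.castRingHom ℚ)).c₄ = (W.c₄ : ℚ) := by rw [map_c₄]; rfl
  have h4 : W.c₄ ≠ 0 := fun h => hc₄ (h ▸ dvd_zero _)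
  have hpow : ¬ (q : ℤ) ∣ W.c₄ ^ 3 := fun h =>
    hc₄ ((Nat.prime_iff_prime_int.mp (Fact.out : q.Prime)).dvd_of_dvd_pow h)
  have h6 : (W.map (Int.castRingHom ℚ)).c₆ ≠ 0 := fun h => hpow (by
    rw [map_c₆, eq_intCast, Int.cast_eq_zero] at h
    rw [show W.c₄ ^ 3 = 1728 * W.Δ by rw [W.c_relation, h]; ring]
    exact dvd_mul_of_dvd_right hΔ _)
  obtain ⟨R, hR, hRa⟩ := exists_fixed_place (W.map (Int.castRingHom ℚ)) (by rw [hVΔ]; exact_mod_cast hΔ0)
    (by rw [hV4]; exact_mod_cast h4) h6 Q hQ hstab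
  set r : ℚ := (W.map (Int.castRingHom ℚ)).c₄ ^ 3 / (W.map (Int.castRingHom ℚ)).Δ with hr
  have hr0 : r ≠ 0 := by
    rw [hr, hV4, hVΔ]
    exact div_ne_zero (pow_ne_zero 3 (by exact_mod_cast h4)) (by exact_mod_cast hΔ0)
  have hr1728 : r ≠ 1728 := fun h => h6 (pow_eq_zero_iff two_ne_zero |>.mp (by
    rw [hr, div_eq_iff (by rw [hVΔ]; exact_mod_cast hΔ0)] at h
    linear_combination h + (W.map (Int.castRingHom ℚ)).c_relation))
  set a : ℚbar := algebraMap ℚ ℚbar r with ha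
  have hnorm : ‖cEmb q a⁻¹‖ < 1 := by
    rw [ha, eq_ratCast, map_inv₀, map_ratCast, hr, hV4, hVΔ, ← Int.cast_pow]
    push_cast
    rw [inv_div]
    simpa using norm_intCast_div_lt_one hΔ hpow
  obtain ⟨s, hs, hjs⟩ := exists_jInvVal_eq hnorm
  have hs0 : s ≠ 0 := by
    rintro rfl
    rw [jInvVal_zero] at hjs
    exact inv_ne_zero ((map_ne_zero (algebraMap ℚ ℚbar)).mpr hr0)
      ((cEmb q).injective (hjs.symm.trans (_root_.map_zero _).symm))
  suffices ∀ M (_ : NeZero M), M = 1 * p →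
      ∀ R : Place ℚbar (modularFunctionFieldBar M),
        (∀ σ : ℚbar ≃ₐ[ℚ] ℚbar, arithmeticGalois (modularFunctionFieldFull M) σ • R = R) →
        0 < R.ord (MF.Coeff.jElem ℚbar M - algebraMap ℚbar (modularFunctionFieldBar M) a) →
        ∃ (P : Place ℚbar (modularFunctionFieldBar M)) (s : ℂ_[q]),
          (∀ σ : ℚbar ≃ₐ[ℚ] ℚbar, arithmeticGalois (modularFunctionFieldFull M) σ • P = P) ∧
            s ≠ 0 ∧ IsEvalPlace q M P s from
    this p inferInstance (one_mul p).symm R hR hRa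
  intro M _ hM R hR hRa
  subst hM
  exact exists_param_of_fixed hp hs hs0 ((map_ne_zero _).mpr hr0)
    (fun h => hr1728 ((algebraMap ℚ ℚbar).injective (h.trans (by simp))))
    hjs.symm R hR hRa

end Fermat.Agent.Mazur.Moduli
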