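import Fermat.Agent.Mazur.Immersion.Hecke
import Fermat.Agent.JPairing.AtkinSwap
import Fermat.Agent.MF.PlaceOrbits.Corollaries
import Fermat.Agent.HK.HeckeFinal

/-!
# The fibre of `X₀(p) → X(1)` over a point of the disc

Over `j = a` with `1/a = 1/j(s)` lie `ev(s)` and the images `w(ev v)`, `v ^ p = s`, of the
Atkin–Lehner involution; so a rational point there gives a rational point with parameter `≠ 0`.
-/

set_option autoImplicit false
set_option linter.unusedSectionVars false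
set_option linter.style.haveILetI false

noncomputable section

namespace Fermat.Agent.Mazur.Moduli

open AlgebraicCurve ModularCurve Immersion IntermediateField
open Fermat.Agent.MF.PlaceOrbits (pl_min_le_ord_add pl_ord_neg)

local notation "ℚbar" => AlgebraicClosure ℚ

/-- Vanishing of `x⁻¹ - a⁻¹` gives vanishing of `x - a`. -/
theorem ord_sub_pos_of_inv {K F : Type*} [Field K] [Field F] [Algebra K F] (P : Place K F) {x : F}
    {a : K} (ha : a ≠ 0) (h : 0 < P.ord (x⁻¹ - algebraMap K F a⁻¹)) :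
    0 < P.ord (x - algebraMap K F a) := by
  set t := x⁻¹ - algebraMap K F a⁻¹ with ht
  have ha' : algebraMap K F a⁻¹ ≠ 0 := (map_ne_zero _).mpr (inv_ne_zero ha)
  have ht0 : t ≠ 0 := fun h0 => by rw [h0, P.ord_zero] at h; exact lt_irrefl _ h
  have hx : x ≠ 0 := fun h0 => by
    rw [ht, h0, inv_zero, zero_sub, pl_ord_neg, RED.ord_algebraMap'] at h
    exact lt_irrefl _ h
  have h1 := pl_min_le_ord_add P (x := t) (y := algebraMap K F a⁻¹)
    (by simpa [ht] using hx) ht0 ha'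
  rw [show t + algebraMap K F a⁻¹ = x⁻¹ by simp [ht], RED.ord_algebraMap'] at h1
  have h2 := pl_min_le_ord_add P (x := x⁻¹) (y := -t)
    (by simpa [ht] using ha) (inv_ne_zero hx) (neg_ne_zero.mpr ht0)
  rw [show x⁻¹ + -t = algebraMap K F a⁻¹ by simp [ht], RED.ord_algebraMap', pl_ord_neg] at h2
  have he : x - algebraMap K F a = -t * (x * algebraMap K F a) := by
    rw [ht, map_inv₀]
    field_simp [(map_ne_zero (algebraMap K F)).mpr ha]
    ring
  rw [he, P.ord_mul (neg_ne_zero.mpr ht0) (mul_ne_zero hx ((map_ne_zero _).mpr ha)),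
    P.ord_mul hx ((map_ne_zero _).mpr ha), RED.ord_algebraMap', pl_ord_neg]
  rw [P.ord_inv] at h1 h2
  omega

theorem pos_of_mul_pos_nat {e : ℕ} {m : ℤ} {k : ℕ} (hk : 1 ≤ k) (h : (e : ℤ) * m = k) : 0 < m := by
  by_contra h'
  have := mul_nonpos_of_nonneg_of_nonpos (Int.natCast_nonneg e) (not_lt.mp h')
  omega

variable {q : ℕ} [Fact q.Prime] {p : ℕ} [NeZero p]

local notation "Fp" => modularFunctionFieldBar (1 * p)

/-- The places over `j = a`. -/
def IsOver (a : ℚbar) (P : Place ℚbar Fp) : Prop :=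
  0 < P.ord (MF.Coeff.jElem ℚbar (1 * p) - algebraMap ℚbar Fp a)

theorem ord_evPlace_one {s : ℂ_[q]} (hs : ‖s‖ < 1) {c : ℚbar} (hc : cEmb q c = jInvVal s) :
    (evPlace q 1 s).ord (jInvElem 1 - algebraMap ℚbar (modularFunctionFieldBar 1) c) = 1 := by
  have hu : AlgPt q 1 s := exists_isEvalPlace hs hc
  rw [← hu.isEvalPlace.muAt_eq_ord (jInv_sub_ne_zero c), ← stdMap_apply]
  exact muAt_jInv_sub hs hc

theorem isOver_of_isEvalPlace {s : ℂ_[q]} (hs : ‖s‖ < 1) {a : ℚbar} (ha : a ≠ 0)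
    (hc : cEmb q a⁻¹ = jInvVal s) {P : Place ℚbar Fp} (hP : IsEvalPlace q (1 * p) P s) :
    IsOver a P := by
  refine ord_sub_pos_of_inv P ha ?_
  have h1 := muAt_jInv_sub (N := 1 * p) hs hc
  rw [stdMap_apply, hP.muAt_eq_ord (jInv_sub_ne_zero _)] at h1
  exact h1 ▸ one_pos

theorem heckeAlphaBar_jInv_sub (c : ℚbar) :
    heckeAlphaBar ℚbar 1 p (jInvElem 1 - algebraMap ℚbar (modularFunctionFieldBar 1) c) =
      jInvElem (1 * p) - algebraMap ℚbar Fp c := by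
  rw [map_sub, AlgHom.commutes, map_inv₀]
  congr 2

theorem isOver_swap {s : ℂ_[q]} (hs : ‖s‖ < 1) {a : ℚbar} (ha : a ≠ 0)
    (hc : cEmb q a⁻¹ = jInvVal s) (w : Fp ≃ₐ[ℚbar] Fp) (hw : w.toAlgHom.toRingHom.IsIntegral)
    (hwα : w.toAlgHom.comp (heckeAlphaBar ℚbar 1 p) = heckeBetaBar ℚbar 1 p)
    (hβ : HeckeBetaBarIntegral ℚbar 1 p) {Q : Place ℚbar Fp}
    (hQβ : Q.restrictAlong (heckeBetaBar ℚbar 1 p) hβ = evPlace q 1 s) :
    IsOver a (Q.restrictAlong w.toAlgHom hw) := by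
  refine ord_sub_pos_of_inv _ ha ?_
  have h1 := Q.ord_restrictAlong (heckeBetaBar ℚbar 1 p) hβ
    (jInvElem 1 - algebraMap ℚbar (modularFunctionFieldBar 1) a⁻¹)
  rw [hQβ, ord_evPlace_one hs hc, mul_one] at h1
  have h2 := Q.ord_restrictAlong w.toAlgHom hw
    (heckeAlphaBar ℚbar 1 p (jInvElem 1 - algebraMap ℚbar (modularFunctionFieldBar 1) a⁻¹))
  have hcomp : w.toAlgHom (heckeAlphaBar ℚbar 1 p
      (jInvElem 1 - algebraMap ℚbar (modularFunctionFieldBar 1) a⁻¹)) =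
      heckeBetaBar ℚbar 1 p (jInvElem 1 - algebraMap ℚbar (modularFunctionFieldBar 1) a⁻¹) :=
    DFunLike.congr_fun hwα _
  rw [hcomp, h1, heckeAlphaBar_jInv_sub] at h2
  exact pos_of_mul_pos_nat (one_le_ramificationIndexAlong (heckeBetaBar ℚbar 1 p) hβ Q) h2.symm

theorem swap_ne (hp : 1 < p) {s v : ℂ_[q]} (hs : ‖s‖ < 1) (hs0 : s ≠ 0) (hv : v ^ p = s)
    (w : Fp ≃ₐ[ℚbar] Fp) (hw : w.toAlgHom.toRingHom.IsIntegral)
    (hwβ : w.toAlgHom.comp (heckeBetaBar ℚbar 1 p) = heckeAlphaBar ℚbar 1 p)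
    (hα : HeckeAlphaBarIntegral ℚbar 1 p) (hβ : HeckeBetaBarIntegral ℚbar 1 p)
    {P Q : Place ℚbar Fp} (hP : IsEvalPlace q (1 * p) P s)
    (hQα : IsEvalPlace q 1 (Q.restrictAlong (heckeAlphaBar ℚbar 1 p) hα) v) :
    Q.restrictAlong w.toAlgHom hw ≠ P := by
  intro h
  have h1 : IsEvalPlace q 1 (P.restrictAlong (heckeBetaBar ℚbar 1 p) hβ) (s ^ p) :=
    isEvalPlace_iff.mpr ((isEvalPlace_iff.mp hP).restrict_qExpand stdMap_heckeBetaBar)
  have h2 : P.restrictAlong (heckeBetaBar ℚbar 1 p) hβ =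
      Q.restrictAlong (heckeAlphaBar ℚbar 1 p) hα := by
    rw [← h]
    refine Place.ext (SetLike.ext fun f => ?_)
    have e : w.toAlgHom (heckeBetaBar ℚbar 1 p f) = heckeAlphaBar ℚbar 1 p f :=
      (AlgHom.comp_apply _ _ _).symm.trans (DFunLike.congr_fun hwβ f)
    refine (mem_restrictAlong_iff (heckeBetaBar ℚbar 1 p) hβ _ f).trans
      ((mem_restrictAlong_iff w.toAlgHom hw Q _).trans ?_)
    rw [e]
    exact (mem_restrictAlong_iff (heckeAlphaBar ℚbar 1 p) hα Q f).symm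
  have h3 : s ^ p = v := h1.param_unique (h2 ▸ hQα)
  have h4 : ‖s‖ ^ (p * p) = ‖s‖ ^ 1 := by
    rw [pow_one, ← norm_pow, pow_mul, h3, hv]
  refine (pow_lt_pow_right_of_lt_one₀ (norm_pos_iff.mpr hs0) hs ?_).ne h4
  calc 1 < p := hp
    _ ≤ p * p := Nat.le_mul_self p

theorem natCard_isOver (hp : p.Prime) {a : ℚbar} (ha : a ≠ 0) (ha' : a ≠ 1728) :
    Nat.card {P : Place ℚbar Fp // IsOver a P} = p + 1 := by
  refine ((MF.PlaceOrbits.jData complexEmb (1 * p)).card_fibre ha ha').trans ?_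
  rw [one_mul, ← pow_one p, MF.Cosets.dedekindPsi_prime_pow hp one_ne_zero]
  simp

open scoped Classical in
theorem natCard_roots (hp : p.Prime) {s : ℂ_[q]} (hs0 : s ≠ 0) :
    Nat.card {v : ℂ_[q] // v ∈ (Polynomial.nthRoots p s).toFinset} = p := by
  classical
  rw [Nat.card_eq_fintype_card, Fintype.card_coe, Multiset.toFinset_card_of_nodup,
    card_nthRoots_complex]
  rw [Polynomial.nthRoots]
  exact Polynomial.nodup_roots
    (Polynomial.separable_X_pow_sub_C s (Nat.cast_ne_zero.mpr hp.ne_zero) hs0)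

theorem arithmeticGalois_smul_gen (σ : ℚbar ≃ₐ[ℚ] ℚbar) {M d : ℕ} [NeZero d] (hd : d ∣ M) :
    arithmeticGalois (modularFunctionFieldFull M) σ •
      (⟨_, HK.Corr.qExpand_jSer_mem (L := ℚbar) hd⟩ : modularFunctionFieldBar M) =
      ⟨_, HK.Corr.qExpand_jSer_mem (L := ℚbar) hd⟩ := by
  refine Subtype.ext ?_
  rw [coe_arithmeticGalois_smul]
  show coeffMap (σ : ℚbar →+* ℚbar) (qExpand ℚbar d (HK.Corr.jSer ℚbar)) =
    qExpand ℚbar d (HK.Corr.jSer ℚbar)
  rw [HK.Corr.jSer, ← HK.Corr.coeffEmb_qExpand_eq, coeffEmb, coeffMap_coeffMap]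
  exact coeffMap_congr (RingHom.ext fun r => by simp) _

theorem swap_gen_fixed (hp : p.Prime) (w : Fp ≃ₐ[ℚbar] Fp)
    (hwα : w.toAlgHom.comp (heckeAlphaBar ℚbar 1 p) = heckeBetaBar ℚbar 1 p)
    (hwβ : w.toAlgHom.comp (heckeBetaBar ℚbar 1 p) = heckeAlphaBar ℚbar 1 p)
    (σ : ℚbar ≃ₐ[ℚ] ℚbar) (d : ℕ) (hd : d ∣ 1 * p) [NeZero d] :
    arithmeticGalois (modularFunctionFieldFull (1 * p)) σ •
        w ⟨_, HK.Corr.qExpand_jSer_mem (L := ℚbar) hd⟩ =
      w ⟨_, HK.Corr.qExpand_jSer_mem (L := ℚbar) hd⟩ := by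
  have h1p : (1 : ℕ) ∣ 1 * p := one_dvd _
  have hpp : p ∣ 1 * p := dvd_mul_left p 1
  have eα : heckeAlphaBar ℚbar 1 p ⟨_, HK.Corr.qExpand_jSer_mem (L := ℚbar) (dvd_refl 1)⟩ =
      ⟨_, HK.Corr.qExpand_jSer_mem (L := ℚbar) h1p⟩ :=
    Subtype.ext (coe_heckeAlphaBar 1 p _)
  have eβ : heckeBetaBar ℚbar 1 p ⟨_, HK.Corr.qExpand_jSer_mem (L := ℚbar) (dvd_refl 1)⟩ =
      ⟨_, HK.Corr.qExpand_jSer_mem (L := ℚbar) hpp⟩ := by
    refine Subtype.ext ((coe_heckeBetaBar 1 p _).trans ?_)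
    rw [qExpand_qExpand]
    exact qExpand_congr (mul_one p) _
  rcases (Nat.dvd_prime hp).mp (by simpa using hd) with rfl | rfl
  · rw [← eα, show w (heckeAlphaBar ℚbar 1 p _) = heckeBetaBar ℚbar 1 p _ from
      DFunLike.congr_fun hwα _, eβ, arithmeticGalois_smul_gen σ hpp]
  · rw [← eβ, show w (heckeBetaBar ℚbar 1 d _) = heckeAlphaBar ℚbar 1 d _ from
      DFunLike.congr_fun hwβ _, eα, arithmeticGalois_smul_gen σ h1p]

/-- The Atkin–Lehner involution commutes with Galois. -/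
theorem swap_galois_comm (w : Fp ≃ₐ[ℚbar] Fp)
    (hgen : ∀ σ : ℚbar ≃ₐ[ℚ] ℚbar, ∀ d (hd : d ∣ 1 * p) (_ : NeZero d),
      arithmeticGalois (modularFunctionFieldFull (1 * p)) σ •
        w ⟨_, HK.Corr.qExpand_jSer_mem (L := ℚbar) hd⟩ =
        w ⟨_, HK.Corr.qExpand_jSer_mem (L := ℚbar) hd⟩) (σ : ℚbar ≃ₐ[ℚ] ℚbar) (x : Fp) :
    w (arithmeticGalois (modularFunctionFieldFull (1 * p)) σ • x) =
      arithmeticGalois (modularFunctionFieldFull (1 * p)) σ • w x := by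
  set g := arithmeticGalois (modularFunctionFieldFull (1 * p)) σ
  have hconst : ∀ (τ : ℚbar ≃ₐ[ℚ] ℚbar) (c : ℚbar),
      arithmeticGalois (modularFunctionFieldFull (1 * p)) τ • algebraMap ℚbar Fp c =
        algebraMap ℚbar Fp (τ c) := fun τ c =>
    arithmeticRingAut_algebraMap (modularFunctionFieldFull (1 * p)) τ c
  let ψ : Fp →ₐ[ℚbar] Fp :=
    { toRingHom := ((MulSemiringAction.toRingHom _ Fp g⁻¹).comp w.toAlgHom.toRingHom).comp
        (MulSemiringAction.toRingHom _ Fp g)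
      commutes' := fun c => by
        show g⁻¹ • w (g • algebraMap ℚbar Fp c) = _
        rw [inv_smul_eq_iff, hconst, AlgEquiv.commutes] }
  have h : ψ = w.toAlgHom := JPairing.modField_algHom_ext (L := ℚbar) fun d hd _ => by
    show g⁻¹ • w (g • _) = w _
    rw [inv_smul_eq_iff, arithmeticGalois_smul_gen σ hd, hgen σ d hd inferInstance]
  have h' : g⁻¹ • w (g • x) = w x := DFunLike.congr_fun h x
  exact inv_smul_eq_iff.mp h'

theorem exists_param_of_fixed (hp : p.Prime) {s : ℂ_[q]}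
    (hs : ‖s‖ < 1) (hs0 : s ≠ 0) {a : ℚbar} (ha : a ≠ 0) (ha' : a ≠ 1728)
    (hc : cEmb q a⁻¹ = jInvVal s) (R : Place ℚbar Fp)
    (hR : ∀ σ : ℚbar ≃ₐ[ℚ] ℚbar, arithmeticGalois (modularFunctionFieldFull (1 * p)) σ • R = R)
    (hRa : IsOver a R) :
    ∃ (P : Place ℚbar Fp) (u : ℂ_[q]),
      (∀ σ : ℚbar ≃ₐ[ℚ] ℚbar, arithmeticGalois (modularFunctionFieldFull (1 * p)) σ • P = P) ∧
        u ≠ 0 ∧ IsEvalPlace q (1 * p) P u := by
  classical
  have hα : HeckeAlphaBarIntegral ℚbar 1 p :=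
    HK.Corr.heckeAlphaBarIntegral_of 1 p (HK.Corr.degreeInput _)
  have hβ : HeckeBetaBarIntegral ℚbar 1 p :=
    HK.Corr.heckeBetaBarIntegral_of 1 p (HK.Corr.degreeInput _)
  obtain ⟨w, hwα, hwβ⟩ := JPairing.exists_atkinSwap ℚbar (N := 1) hp
    fun h => hp.ne_one (Nat.dvd_one.mp h)
  have hw : w.toAlgHom.toRingHom.IsIntegral :=
    RingHom.IsIntegral.of_finite (RingHom.Finite.of_surjective _ w.surjective)
  have hu1 : AlgPt q 1 s := exists_isEvalPlace hs hc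
  have hpt : AlgPt q (1 * p) s := exists_isEvalPlace hs hc
  have hTv : ∀ v : {v : ℂ_[q] // v ∈ (Polynomial.nthRoots p s).toFinset}, v.1 ^ p = s := fun v =>
    (Polynomial.mem_nthRoots hp.pos).mp (Multiset.mem_toFinset.mp v.2)
  have hTn : ∀ v : {v : ℂ_[q] // v ∈ (Polynomial.nthRoots p s).toFinset}, ‖v.1‖ < 1 := fun v => by
    rw [← pow_lt_one_iff_of_nonneg (norm_nonneg _) hp.ne_zero, ← norm_pow, hTv]
    exact hs
  have hroot : ∀ v : {v : ℂ_[q] // v ∈ (Polynomial.nthRoots p s).toFinset},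
      ∃ Q : Place ℚbar Fp, IsEvalPlace q (1 * p) Q v.1 ∧
      Q.restrictAlong (heckeBetaBar ℚbar 1 p) hβ = evPlace q 1 s ∧
      IsEvalPlace q 1 (Q.restrictAlong (heckeAlphaBar ℚbar 1 p) hα) v.1 := fun v =>
    let ⟨Q, h1, h2, h3, _⟩ := exists_rootPlace hu1 (hTv v) (hTn v) hα hβ
    ⟨Q, h1, h2, h3⟩
  choose Q hQ hQβ hQα using hroot
  haveI : Finite {P : Place ℚbar Fp // IsOver a P} :=
    Nat.finite_of_card_ne_zero (by rw [natCard_isOver hp ha ha']; omega)
  let em : Option {v : ℂ_[q] // v ∈ (Polynomial.nthRoots p s).toFinset} →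
      {P : Place ℚbar Fp // IsOver a P} := fun o =>
    o.elim ⟨evPlace q (1 * p) s, isOver_of_isEvalPlace hs ha hc hpt.isEvalPlace⟩
      fun v => ⟨(Q v).restrictAlong w.toAlgHom hw, isOver_swap hs ha hc w hw hwα hβ (hQβ v)⟩
  have hne := fun v => swap_ne hp.one_lt hs hs0 (hTv v) w hw hwβ hα hβ hpt.isEvalPlace (hQα v)
  have hem : Function.Injective em := by
    rintro (_ | v) (_ | v') h
    · rfl
    · exact absurd (congrArg Subtype.val h).symm (hne v')
    · exact absurd (congrArg Subtype.val h) (hne v)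
    · refine congrArg some (Subtype.ext ((hQ v).param_unique ?_))
      have hQQ : Q v = Q v' := Place.ext (SetLike.ext fun f => by
        have := congrArg (fun P : {P : Place ℚbar Fp // IsOver a P} =>
          w.symm f ∈ P.1.toValuationSubring) h
        simpa [em, mem_restrictAlong_iff] using this)
      rw [hQQ]
      exact hQ v'
  have hcT : Nat.card (Option {v : ℂ_[q] // v ∈ (Polynomial.nthRoots p s).toFinset}) = p + 1 := by
    rw [Finite.card_option, natCard_roots hp hs0]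
  obtain ⟨o, ho⟩ := (hem.bijective_of_nat_card_le
    (by rw [natCard_isOver hp ha ha', hcT])).2 ⟨R, hRa⟩
  rcases o with _ | v
  · obtain rfl : evPlace q (1 * p) s = R := congrArg Subtype.val ho
    exact ⟨_, s, hR, hs0, hpt.isEvalPlace⟩
  refine ⟨Q v, v.1, fun σ => ?_, fun h => hs0 (by rw [← hTv v, h, zero_pow hp.ne_zero]), hQ v⟩
  have hcomm := swap_galois_comm w (fun τ d hd _ => swap_gen_fixed hp w hwα hwβ τ d hd) σ⁻¹
  apply Place.ext
  rw [SemilinearAut.smul_toValuationSubring]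
  refine SetLike.ext fun f => ?_
  rw [ValuationSubring.mem_pointwise_smul_iff_inv_smul_mem, ← map_inv]
  obtain ⟨x, rfl⟩ := w.surjective f
  rw [← hcomm]
  have hRW : (Q v).restrictAlong w.toAlgHom hw = R := congrArg Subtype.val ho
  have hsmul := congrArg (fun P : Place ℚbar Fp => x ∈ P.toValuationSubring) (hR σ)
  simp only [SemilinearAut.smul_toValuationSubring,
    ValuationSubring.mem_pointwise_smul_iff_inv_smul_mem, ← map_inv, eq_iff_iff] at hsmul
  rw [← hRW] at hsmul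
  exact hsmul

end Fermat.Agent.Mazur.Moduli
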