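import Fermat.Agent.DS.G1.BaseFam
import Fermat.Agent.DS.G1.Core.Descend
import Fermat.Agent.MF.Coeff.GaloisDescent
import Fermat.Agent.MF.IntStruct.Relations
import Fermat.Agent.MF.IntStruct.Separating
import Fermat.Agent.Mazur.Immersion.Modular
import Fermat.Agent.Mazur.Immersion.Swap

/-!
# Rational functions on `X₀(p)` separating the lines

`∏_b (P_(0,b) E₄ - t E₆)` over `b` prime to `p`, divided by `E₆ ^ (p - 1)`, is for rational `t`
a function on `X₀(p)` with rational expansion.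
-/

set_option autoImplicit false
set_option linter.unusedSectionVars false

noncomputable section

open UpperHalfPlane HahnSeries CongruenceSubgroup
open scoped MatrixGroups Manifold ModularForm

namespace Fermat.Agent.Mazur.Moduli

open Fermat.Agent.DS.G1 Fermat.Agent.Igusa ModularCurve
open Fermat.Agent.MF (MForm qL qFunctions coe_mem_qFunctions)
open Fermat.Agent.MF.IntStruct (IsForm isForm_of_levelOne)

variable {p : ℕ} [Fact p.Prime]

/-- The vector `(0, b)`. -/
def lineVec (b : (ZMod p)ˣ) : Fin 2 → ZMod p := ![0, (b : ZMod p)]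

/-- `P_v E₄ - t E₆`, of weight `6`. -/
def weberFactor (t : ℂ) (v : Fin 2 → ZMod p) (τ : ℍ) : ℂ :=
  wpVec p v τ * ModularForm.E₄ τ - t * ModularForm.E₆ τ

variable (p) in
/-- The product over a line. -/
def weberProd (t : ℂ) : ℍ → ℂ := ∏ b : (ZMod p)ˣ, weberFactor t (lineVec b)

theorem lineVec_ne_zero (b : (ZMod p)ˣ) : lineVec b ≠ 0 := fun h =>
  b.ne_zero (by simpa [lineVec] using congrFun h 1)

theorem weberFactor_slash (t : ℂ) (v : Fin 2 → ZMod p) (γ : SL(2, ℤ)) :
    (weberFactor t v) ∣[(6 : ℤ)] γ = weberFactor t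
      (fun i => v 0 * ((γ 0 i : ℤ) : ZMod p) + v 1 * ((γ 1 i : ℤ) : ZMod p)) := by
  funext τ
  rw [ModularForm.SL_slash_apply, weberFactor, wpVec_smul, E₄_smul, E₆_smul, weberFactor,
    zpow_neg, zpow_ofNat]
  have hj := denom_ne_zero γ τ
  field_simp

theorem weberFactor_holo (t : ℂ) {v : Fin 2 → ZMod p} (hv : v ≠ 0) :
    MDiff (weberFactor t v) := by
  have h : weberFactor t v = ((wpQ hv : ℍ → ℂ) + fun _ => 1 / 12) * ⇑ModularForm.E₄ -
      (fun _ => t) * ⇑ModularForm.E₆ := by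
    funext τ
    simp [weberFactor]
  rw [h]
  exact (((expFun_mdiff (wpQ hv)).add mdifferentiable_const).mul
    (ModularFormClass.holo _)).sub (mdifferentiable_const.mul (ModularFormClass.holo _))

theorem weberFactor_bdd (t : ℂ) {v : Fin 2 → ZMod p} (hv : v ≠ 0) :
    IsBoundedAtImInfty (weberFactor t v) := by
  have h : weberFactor t v = ((fun τ => wpVec p v τ - 1 / 12) + fun _ => 1 / 12) *
      ⇑ModularForm.E₄ - (fun _ => t) * ⇑ModularForm.E₆ := by
    funext τ
    simp [weberFactor]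
  rw [h]
  exact (((hasPSum_qvPS hv).isBoundedAtImInfty (Nat.Prime.pos Fact.out)).add
    (Filter.const_boundedAtFilter _ _)).mul (ModularFormClass.bdd_at_infty _) |>.sub
      ((Filter.const_boundedAtFilter _ _).mul (ModularFormClass.bdd_at_infty _))

theorem weberProd_slash (t : ℂ) (γ : SL(2, ℤ)) :
    (weberProd p t) ∣[(6 : ℤ) * (Fintype.card (ZMod p)ˣ : ℤ)] γ =
      ∏ b : (ZMod p)ˣ, weberFactor t (fun i => lineVec b 0 * ((γ 0 i : ℤ) : ZMod p) +
        lineVec b 1 * ((γ 1 i : ℤ) : ZMod p)) := by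
  rw [weberProd, ← Finset.card_univ, MF.IntStruct.prod_slash_SL]
  exact Finset.prod_congr rfl fun b _ => weberFactor_slash t _ γ

theorem isForm_weberProd (t : ℂ) :
    IsForm (Gamma0 p) ((6 : ℤ) * (Fintype.card (ZMod p)ˣ : ℤ)) (weberProd p t) := by
  refine ⟨fun γ hγ => ?_, ?_, fun γ => ?_⟩
  · have hdet := congrArg (Int.cast : ℤ → ZMod p) (MF.Cosets.det_entries γ)
    rw [Gamma0_mem] at hγ
    push_cast at hdet
    rw [hγ] at hdet
    have hu : IsUnit ((γ 1 1 : ℤ) : ZMod p) :=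
      IsUnit.of_mul_eq_one ((γ 0 0 : ℤ) : ZMod p) (by linear_combination hdet)
    rw [weberProd_slash, weberProd]
    refine Fintype.prod_equiv (Equiv.mulRight hu.unit) _ _ fun b => ?_
    congr 1
    funext i
    fin_cases i <;> simp [lineVec, hγ]
  · exact Finset.prod_induction _ (fun f : ℍ → ℂ => MDiff f) (fun _ _ hf hg => hf.mul hg)
      mdifferentiable_const
      fun b _ => weberFactor_holo t (lineVec_ne_zero b)
  · rw [weberProd_slash]
    refine Finset.prod_induction _ IsBoundedAtImInfty (fun _ _ => Filter.BoundedAtFilter.mul)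
      (Filter.const_boundedAtFilter _ _) fun b _ => weberFactor_bdd t fun h => ?_
    have h0 := congrFun h 0
    have h1 := congrFun h 1
    have hdet := congrArg (Int.cast : ℤ → ZMod p) (MF.Cosets.det_entries γ)
    push_cast at hdet
    simp [lineVec] at h0 h1
    rw [h0, h1] at hdet
    simp at hdet

variable (p) in
/-- The numerator. -/
def weberForm (t : ℂ) : MForm p ((6 : ℤ) * (Fintype.card (ZMod p)ˣ : ℤ)) :=
  (isForm_weberProd t).toGamma0

variable (p) in
/-- The denominator. -/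
def sixForm : MForm p ((6 : ℤ) * (Fintype.card (ZMod p)ˣ : ℤ)) :=
  (((isForm_of_levelOne ModularForm.E₆).mono le_top).pow _).toGamma0

@[simp] theorem coe_weberForm (t : ℂ) : ⇑(weberForm p t) = weberProd p t := rfl

@[simp] theorem coe_sixForm :
    ⇑(sixForm p) = ⇑ModularForm.E₆ ^ Fintype.card (ZMod p)ˣ := rfl

theorem sixForm_ne_zero : sixForm p ≠ 0 := by
  intro h
  obtain ⟨τ, hτ⟩ := MF.kleinJ_surjective 0
  refine pow_ne_zero _ (fun h6 => ?_) (congrArg (fun f : MForm p _ => f τ) h)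
  have h1728 := (MF.kleinJ_eq_1728_iff τ).mpr h6
  norm_num [hτ] at h1728

/-- The series at period `p` of a function periodic with period `1`. -/
theorem hasExp_qL {f : ℍ → ℂ} (hf : f ∈ qFunctions) :
    HasExp p f (qExpand ℂ p (qL f)) := by
  have h : HasExp 1 f (qL f) :=
    ⟨0, qExpansion 1 f, by simp [qL],
      by simpa [HasPSum] using fun τ => MF.hasSum_of_mem_qFunctions hf τ⟩
  have h2 := h.comp (fun τ => τ) (1 : ℂˣ) p (h' := p) fun τ => by
    rw [Units.val_one, one_mul]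
    simpa using qParam_level_up (a := 1) (NeZero.ne p) one_ne_zero (one_dvd p) τ
  simpa [qScale_one] using! h2

theorem coeffMap_qL_eq_self {f : ℍ → ℂ} (hf : f ∈ qFunctions) (x : expFun p)
    (hx : (x : ℍ → ℂ) = f) (σ : ℂ →+* ℂ) (hσ : coeffMap σ (expan p x) = expan p x) :
    coeffMap σ (qL f) = qL f := by
  subst hx
  rw [expan_eq (f := x) (hasExp_qL hf), Immersion.coeffMap_qExpand_comm] at hσ
  exact qExpand_injective (R := ℂ) (N := p) hσ

variable (p) in
/-- `E₄` as a member of `expFun p`. -/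
def fourFun : expFun p := 1 - 12 * h2Fun p

variable (p) in
/-- `E₆` as a member of `expFun p`. -/
def sixFun : expFun p := 216 * h3Fun p + 1 - 18 * h2Fun p

theorem coe_fourFun (τ : ℍ) : (fourFun p : ℍ → ℂ) τ = ModularForm.E₄ τ := by
  show 1 - ((12 : ℕ) : ℍ → ℂ) τ * ((1 - ModularForm.E₄ τ) / 12) = _
  rw [Pi.natCast_apply]
  push_cast
  ring

theorem coe_sixFun (τ : ℍ) : (sixFun p : ℍ → ℂ) τ = ModularForm.E₆ τ := by
  show ((216 : ℕ) : ℍ → ℂ) τ * ((1 - 3 * ModularForm.E₄ τ + 2 * ModularForm.E₆ τ) / 432) + 1 -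
    ((18 : ℕ) : ℍ → ℂ) τ * ((1 - ModularForm.E₄ τ) / 12) = _
  rw [Pi.natCast_apply, Pi.natCast_apply]
  push_cast
  ring

theorem coeffMap_fourFun (σ : ℂ →+* ℂ) :
    coeffMap σ (expan p (fourFun p)) = expan p (fourFun p) := by
  simp only [fourFun, h2Fun, map_sub, map_mul, map_one, map_ofNat,
    coeffMap_eq_self_of_mem_serZ (expan_intFun_mem_serZ _ _ _)]

theorem coeffMap_sixFun (σ : ℂ →+* ℂ) :
    coeffMap σ (expan p (sixFun p)) = expan p (sixFun p) := by
  simp only [sixFun, h2Fun, h3Fun, map_sub, map_add, map_mul, map_one, map_ofNat,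
    coeffMap_eq_self_of_mem_serZ (expan_intFun_mem_serZ _ _ _)]

variable (p) in
/-- A constant as a member of `expFun p`. -/
def cFun (c : ℂ) : expFun p := ⟨_, const_mem_expFun c⟩

theorem coeffMap_cFun (σ : ℂ →+* ℂ) (c : ℂ) :
    coeffMap σ (expan p (cFun p c)) = expan p (cFun p (σ c)) := by
  rw [cFun, cFun, expan_const, expan_const, coeffMap_single]

/-- The factor as a member of `expFun p`. -/
def factorFun (t : ℂ) {v : Fin 2 → ZMod p} (hv : v ≠ 0) : expFun p :=
  (wpQ hv + cFun p (1 / 12)) * fourFun p - cFun p t * sixFun p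

theorem coe_factorFun (t : ℂ) {v : Fin 2 → ZMod p} (hv : v ≠ 0) :
    (factorFun t hv : ℍ → ℂ) = weberFactor t v := by
  funext τ
  show (wpVec p v τ - 1 / 12 + 1 / 12) * (fourFun p : ℍ → ℂ) τ -
    t * (sixFun p : ℍ → ℂ) τ = _
  rw [coe_fourFun, coe_sixFun, weberFactor, sub_add_cancel]

theorem coeffMap_weber_prod (t : ℚ) (σ : ℂ →+* ℂ) :
    coeffMap σ (expan p (∏ b : (ZMod p)ˣ, factorFun (t : ℂ) (lineVec_ne_zero b))) =
      expan p (∏ b : (ZMod p)ˣ, factorFun (t : ℂ) (lineVec_ne_zero b)) := by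
  obtain ⟨s, hs⟩ := exists_actsBy_level σ p
  rw [map_prod, map_prod]
  refine Fintype.prod_equiv (Equiv.mulLeft s) _ _ fun b => ?_
  simp only [factorFun, map_sub, map_add, map_mul, coeffMap_fourFun, coeffMap_sixFun,
    coeffMap_cFun, expan_wpQ, coeffMap_ofPowerSeries, coeffMap_qvPS hs, map_div₀, map_one,
    map_ofNat, map_ratCast]
  simp [lineVec]

theorem coeffMap_qL_weberForm (t : ℚ) (σ : ℂ →+* ℂ) :
    coeffMap σ (qL (weberForm p (t : ℂ))) = qL (weberForm p (t : ℂ)) := by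
  refine coeffMap_qL_eq_self (coe_mem_qFunctions _)
    (∏ b : (ZMod p)ˣ, factorFun (t : ℂ) (lineVec_ne_zero b)) ?_ σ (coeffMap_weber_prod t σ)
  rw [SubmonoidClass.coe_finsetProd, coe_weberForm, weberProd]
  exact Finset.prod_congr rfl fun b _ => coe_factorFun _ _

theorem coeffMap_qL_sixForm (σ : ℂ →+* ℂ) :
    coeffMap σ (qL (sixForm p)) = qL (sixForm p) := by
  refine coeffMap_qL_eq_self (coe_mem_qFunctions _) (sixFun p ^ Fintype.card (ZMod p)ˣ) ?_ σ
    (by rw [map_pow, map_pow, coeffMap_sixFun])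
  rw [SubmonoidClass.coe_pow, coe_sixForm, funext coe_sixFun]

/-- The function is defined over `ℚ`. -/
theorem exists_weberElt (t : ℚ) :
    ∃ U : modularFunctionFieldBar p,
      (∀ σ : AlgebraicClosure ℚ ≃ₐ[ℚ] AlgebraicClosure ℚ,
        arithmeticGalois (modularFunctionFieldFull p) σ • U = U) ∧
      coeffMap Immersion.complexEmb (U : LaurentSeries (AlgebraicClosure ℚ)) =
        qL (weberForm p (t : ℂ)) / qL (sixForm p) := by
  obtain ⟨y, hy, hyx⟩ := MF.Coeff.exists_mem_of_forall_fixed (modularFunctionFieldFull p)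
    (x := qL (weberForm p (t : ℂ)) / qL (sixForm p))
    (by
      rw [← MF.MFField_eq_laurentBaseChange]
      exact MF.div_mem_MFField _ _)
    (fun σ => by rw [map_div₀, coeffMap_qL_weberForm, coeffMap_qL_sixForm])
  refine ⟨⟨coeffEmb (AlgebraicClosure ℚ) y, ?_⟩, fun σ => Subtype.ext ?_, ?_⟩
  · exact MF.Coeff.coeffEmb_mem_laurentBaseChange_iff.mpr hy
  · rw [coe_arithmeticGalois_smul]
    show coeffMap _ (coeffEmb _ y) = coeffEmb _ y
    rw [coeffEmb, coeffMap_coeffMap]
    exact coeffMap_congr (RingHom.ext fun r => by simp) _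
  · rw [← hyx]
    show coeffMap _ (coeffEmb _ y) = coeffEmb ℂ y
    rw [coeffEmb, coeffEmb, coeffMap_coeffMap]
    exact coeffMap_congr (Subsingleton.elim _ _) _

end Fermat.Agent.Mazur.Moduli
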